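import Mathlib

/-!
# S16 helper (helper668): generic theta series and their `q`-expansions (Mathlib only)

* `summable_gaussian_pi`, `summable_exp_neg_of_coercive`, `finite_sublevel_of_coercive`:
  Gaussian sums over the integer lattice `ι → ℤ`.
* `exists_coercive_of_posDef`: a real positive definite matrix satisfies `c ∑ xᵢ² ≤ xᵀ A x`.
* `mdifferentiable_of_hasSum_qExpansion`, `periodic_of_hasSum_qExpansion`,
  `qExpansion_coeff_eq_of_hasSum`: a function on `ℍ` given everywhere by a convergent `q`-series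
  is holomorphic, periodic, bounded at `i∞`, and its `q`-expansion is that series
  (no modularity needed).
* `ThetaSummable m`, `thetaFun h m`: the generic theta function `τ ↦ ∑ₓ q_h(τ) ^ m x`; its
  `q`-expansion coefficients are the representation numbers `#{x | m x = k}`.
* `card_fiber_zero`, `even_card_fiber`: `r(0) = 1`, `r(k)` even for `k ≥ 1`.
-/

set_option autoImplicit false

namespace Fermat.Agent.S16.H668

open Complex UpperHalfPlane Function Matrix
open scoped Manifold

local notation "𝕢" => Function.Periodic.qParam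

/-! ## Gaussian sums over the integer lattice -/

/-- Product of summable nonnegative one-variable functions is summable over `Fin n → α`. -/
theorem summable_prod_fin {α : Type*} {g : α → ℝ} (hg0 : ∀ a, 0 ≤ g a) (hg : Summable g) :
    ∀ n : ℕ, Summable fun x : Fin n → α => ∏ i, g (x i) := by
  intro n
  induction n with
  | zero =>
    exact Summable.of_finite
  | succ n ih =>
    have h1 : Summable fun y : α × (Fin n → α) => g y.1 * ∏ i, g (y.2 i) :=
      hg.mul_of_nonneg ih hg0 (fun x => Finset.prod_nonneg fun i _ => hg0 _)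
    have h2 := (Equiv.summable_iff (Fin.consEquiv (fun _ : Fin (n+1) => α))
      (f := fun x : Fin (n+1) → α => ∏ i, g (x i))).mp
    apply h2
    refine h1.congr ?_
    intro y
    simp [Fin.consEquiv, Fin.prod_univ_succ]

/-- Product of summable nonnegative one-variable functions is summable over `ι → α`. -/
theorem summable_prod_pi {ι : Type*} [Fintype ι] {α : Type*} {g : α → ℝ}
    (hg0 : ∀ a, 0 ≤ g a) (hg : Summable g) :
    Summable fun x : ι → α => ∏ i, g (x i) := by
  classical
  let e := Fintype.equivFin ι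
  have h := summable_prod_fin hg0 hg (Fintype.card ι)
  have h2 := (Equiv.summable_iff (Equiv.arrowCongr e (Equiv.refl α))
      (f := fun x : Fin (Fintype.card ι) → α => ∏ i, g (x i))).mpr h
  refine h2.congr ?_
  intro x
  simp only [Function.comp_apply, Equiv.arrowCongr_apply, Equiv.coe_refl, id]
  exact (Equiv.prod_comp e.symm (fun i => g (x i)))

theorem summable_gaussian_int {b : ℝ} (hb : 0 < b) :
    Summable fun n : ℤ => Real.exp (-b * (n : ℝ) ^ 2) := by
  have h := HurwitzKernelBounds.summable_f_int 0 0 (t := b / Real.pi) (by positivity)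
  refine h.congr ?_
  intro n
  simp only [HurwitzKernelBounds.f_int, pow_zero, one_mul, add_zero]
  congr 1
  field_simp

section lattice

variable {ι : Type*} [Fintype ι]

theorem summable_gaussian_pi {b : ℝ} (hb : 0 < b) :
    Summable fun x : ι → ℤ => Real.exp (-b * ∑ i, (x i : ℝ) ^ 2) := by
  have h := summable_prod_pi (ι := ι) (g := fun n : ℤ => Real.exp (-b * (n : ℝ) ^ 2))
    (fun _ => (Real.exp_pos _).le) (summable_gaussian_int hb)
  refine h.congr ?_
  intro x
  rw [← Real.exp_sum, Finset.mul_sum]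

/-- A coercive function on the integer lattice gives a summable Gaussian-type family. -/
theorem summable_exp_neg_of_coercive {Q : (ι → ℤ) → ℝ} {c C : ℝ} (hc : 0 < c)
    (hQ : ∀ x, c * ∑ i, (x i : ℝ) ^ 2 ≤ Q x + C) {t : ℝ} (ht : 0 < t) :
    Summable fun x => Real.exp (-t * Q x) := by
  have h := (summable_gaussian_pi (ι := ι) (b := t * c) (by positivity)).mul_left
    (Real.exp (t * C))
  refine Summable.of_nonneg_of_le (fun _ => (Real.exp_pos _).le) (fun x => ?_) h
  rw [← Real.exp_add]
  apply Real.exp_le_exp.mpr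
  have := hQ x
  nlinarith [mul_le_mul_of_nonneg_left this ht.le]

/-- Sublevel sets of a coercive function on the integer lattice are finite. -/
theorem finite_sublevel_of_coercive {Q : (ι → ℤ) → ℝ} {c C : ℝ} (hc : 0 < c)
    (hQ : ∀ x, c * ∑ i, (x i : ℝ) ^ 2 ≤ Q x + C) (B : ℝ) :
    {x | Q x ≤ B}.Finite := by
  classical
  -- each coordinate is bounded
  obtain ⟨M, hM⟩ : ∃ M : ℕ, (B + C) / c ≤ M := exists_nat_ge _
  have hsub : {x | Q x ≤ B} ⊆ {f : ι → ℤ | ∀ i, f i ∈ Set.Icc (-(M : ℤ)) M} := by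
    intro x hx i
    change Q x ≤ B at hx
    have h1 : c * ∑ j, (x j : ℝ) ^ 2 ≤ B + C := by linarith [hQ x]
    have h2 : (x i : ℝ) ^ 2 ≤ ∑ j, (x j : ℝ) ^ 2 :=
      Finset.single_le_sum (f := fun j => (x j : ℝ) ^ 2) (fun j _ => sq_nonneg _)
        (Finset.mem_univ i)
    have h3 : (x i : ℝ) ^ 2 ≤ M := by
      have : ∑ j, (x j : ℝ) ^ 2 ≤ (B + C) / c := by
        rw [le_div_iff₀ hc]; linarith
      linarith
    have h4 : |(x i : ℝ)| ≤ M := by
      by_contra hlt
      rw [not_le] at hlt
      have h5 : (1 : ℝ) ≤ |(x i : ℝ)| := by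
        have : x i ≠ 0 := by
          rintro h0
          rw [h0] at hlt
          simp at hlt
          have : (0:ℝ) ≤ M := Nat.cast_nonneg _
          linarith
        have : (1 : ℤ) ≤ |x i| := Int.one_le_abs this
        have : ((1 : ℤ) : ℝ) ≤ ((|x i| : ℤ) : ℝ) := by exact_mod_cast this
        simpa using this
      have h6 : |(x i : ℝ)| ≤ (x i : ℝ) ^ 2 := by
        rw [← sq_abs]
        nlinarith
      linarith
    rw [abs_le] at h4
    constructor
    · have : ((-(M : ℤ) : ℤ) : ℝ) ≤ (x i : ℝ) := by push_cast; exact h4.1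
      exact_mod_cast this
    · have : (x i : ℝ) ≤ ((M : ℤ) : ℝ) := by push_cast; exact h4.2
      exact_mod_cast this
  exact (Set.Finite.pi' fun _ => Set.finite_Icc (-(M : ℤ)) (M : ℤ)).subset hsub

/-- A positive definite real matrix is coercive: `c * ∑ xᵢ² ≤ xᵀ A x` for some `c > 0`. -/
theorem exists_coercive_of_posDef {A : Matrix ι ι ℝ} (hA : A.PosDef) :
    ∃ c : ℝ, 0 < c ∧ ∀ x : ι → ℝ, c * ∑ i, x i ^ 2 ≤ x ⬝ᵥ (A *ᵥ x) := by
  classical
  let S : Set (ι → ℝ) := {x | ∑ i, x i ^ 2 = 1}
  by_cases hS : S.Nonempty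
  · have hScl : IsClosed S := by
      apply isClosed_eq
      · fun_prop
      · exact continuous_const
    have hSbdd : Bornology.IsBounded S := by
      rw [Metric.isBounded_iff_subset_closedBall (0 : ι → ℝ)]
      refine ⟨1, fun x hx => ?_⟩
      rw [mem_closedBall_zero_iff, pi_norm_le_iff_of_nonneg zero_le_one]
      intro i
      have hx' : ∑ j, x j ^ 2 = 1 := hx
      have h2 : x i ^ 2 ≤ ∑ j, x j ^ 2 :=
        Finset.single_le_sum (f := fun j => x j ^ 2) (fun j _ => sq_nonneg _) (Finset.mem_univ i)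
      rw [Real.norm_eq_abs]
      rw [hx'] at h2
      exact abs_le_one_iff_mul_self_le_one.mpr (by nlinarith)
    have hScpt : IsCompact S := Metric.isCompact_of_isClosed_isBounded hScl hSbdd
    have hcont : ContinuousOn (fun x : ι → ℝ => x ⬝ᵥ (A *ᵥ x)) S := by
      apply Continuous.continuousOn
      unfold dotProduct mulVec dotProduct
      fun_prop
    obtain ⟨x₀, hx₀S, hx₀min⟩ := hScpt.exists_isMinOn hS hcont
    have hx₀ne : x₀ ≠ 0 := by
      rintro rfl
      have : ∑ i : ι, ((0 : ι → ℝ) i) ^ 2 = 1 := hx₀S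
      simp at this
    have hpos : 0 < x₀ ⬝ᵥ (A *ᵥ x₀) := by
      have := hA.dotProduct_mulVec_pos hx₀ne
      simpa using this
    refine ⟨x₀ ⬝ᵥ (A *ᵥ x₀), hpos, fun x => ?_⟩
    by_cases hx : x = 0
    · subst hx
      simp
    set s2 : ℝ := ∑ i, x i ^ 2 with hs2
    have hs2pos : 0 < s2 := by
      rw [hs2]
      obtain ⟨i, hi⟩ : ∃ i, x i ≠ 0 := by
        by_contra hcon
        push Not at hcon
        exact hx (funext hcon)
      have h2 : x i ^ 2 ≤ ∑ j, x j ^ 2 :=
        Finset.single_le_sum (f := fun j => x j ^ 2) (fun j _ => sq_nonneg _) (Finset.mem_univ i)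
      have : 0 < x i ^ 2 := by positivity
      linarith
    set s : ℝ := Real.sqrt s2 with hs
    have hspos : 0 < s := Real.sqrt_pos.mpr hs2pos
    have hss : s * s = s2 := Real.mul_self_sqrt hs2pos.le
    have hyS : (s⁻¹ • x) ∈ S := by
      change ∑ i, (s⁻¹ • x) i ^ 2 = 1
      simp only [Pi.smul_apply, smul_eq_mul, mul_pow]
      rw [← Finset.mul_sum, ← hs2, ← hss]
      field_simp
    have hmin : x₀ ⬝ᵥ (A *ᵥ x₀) ≤ (s⁻¹ • x) ⬝ᵥ (A *ᵥ (s⁻¹ • x)) := hx₀min hyS
    rw [mulVec_smul, dotProduct_smul, smul_dotProduct, smul_eq_mul, smul_eq_mul] at hmin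
    have : x₀ ⬝ᵥ (A *ᵥ x₀) * (s * s) ≤ x ⬝ᵥ (A *ᵥ x) := by
      have h3 : s⁻¹ * (s⁻¹ * (x ⬝ᵥ A *ᵥ x)) * (s * s) = x ⬝ᵥ (A *ᵥ x) := by
        field_simp
      calc x₀ ⬝ᵥ (A *ᵥ x₀) * (s * s) ≤ s⁻¹ * (s⁻¹ * (x ⬝ᵥ A *ᵥ x)) * (s * s) := by
            gcongr
        _ = _ := h3
    rw [hss] at this
    exact this
  · refine ⟨1, one_pos, fun x => ?_⟩
    by_cases hx : x = 0
    · subst hx; simp
    · exfalso
      apply hS
      obtain ⟨i, hi⟩ : ∃ i, x i ≠ 0 := by
        by_contra hcon
        push Not at hcon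
        exact hx (funext hcon)
      -- the `i`-th basis vector lies on the sphere
      refine ⟨Pi.single i 1, ?_⟩
      change ∑ j, (Pi.single i (1 : ℝ) : ι → ℝ) j ^ 2 = 1
      rw [Finset.sum_eq_single i]
      · simp
      · intro j _ hj
        simp [Pi.single_eq_of_ne hj]
      · intro h; exact absurd (Finset.mem_univ i) h

/-- Shifting the argument keeps coercivity (with an additive constant). -/
theorem coercive_shift {c : ℝ} (hc : 0 ≤ c) (h : ι → ℝ) (x : ι → ℝ) :
    c / 2 * ∑ i, x i ^ 2 ≤ c * ∑ i, (x i + h i) ^ 2 + c * ∑ i, h i ^ 2 := by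
  rw [← mul_add, ← Finset.sum_add_distrib, div_mul_eq_mul_div, div_le_iff₀ two_pos, mul_assoc]
  apply mul_le_mul_of_nonneg_left _ hc
  rw [Finset.sum_mul]
  apply Finset.sum_le_sum
  intro i _
  nlinarith [sq_nonneg (x i + 2 * h i)]

end lattice

/-! ## Functions given by a convergent `q`-series -/

/-- A function on `ℍ` given everywhere by a convergent `q`-expansion is holomorphic. -/
theorem mdifferentiable_of_hasSum_qExpansion {f : ℍ → ℂ} {c : ℕ → ℂ} {h : ℝ} (hh : 0 < h)
    (hf : ∀ τ : ℍ, HasSum (fun m ↦ c m • 𝕢 h τ ^ m) (f τ)) : MDiff f := by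
  rw [UpperHalfPlane.mdifferentiable_iff]
  -- differentiability at each point `z` with `0 < im z`
  intro z hz
  apply DifferentiableAt.differentiableWithinAt
  -- work on the open set `U = {w | im z / 2 < im w}`
  set δ : ℝ := z.im / 2 with hδ
  have hδpos : 0 < δ := by rw [hδ]; exact half_pos hz
  set U : Set ℂ := {w | δ < w.im} with hU
  have hUopen : IsOpen U := isOpen_lt continuous_const Complex.continuous_im
  have hzU : z ∈ U := by
    change δ < z.im
    rw [hδ]; linarith
  -- the bounding sequence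
  let τ₀ : ℍ := ⟨⟨0, δ⟩, hδpos⟩
  have hsum : Summable fun m : ℕ => ‖c m • 𝕢 h τ₀ ^ m‖ := (hf τ₀).summable.norm
  have hD : DifferentiableOn ℂ (fun w : ℂ => ∑' m : ℕ, c m • 𝕢 h w ^ m) U := by
    refine differentiableOn_tsum_of_summable_norm hsum (fun m => ?_) hUopen (fun m w hw => ?_)
    · have : Differentiable ℂ (fun w : ℂ => c m • 𝕢 h w ^ m) := by
        unfold Function.Periodic.qParam
        fun_prop
      exact this.differentiableOn
    · rw [norm_smul, norm_smul, norm_pow, norm_pow]
      gcongr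
      rw [Function.Periodic.norm_qParam, Function.Periodic.norm_qParam]
      apply Real.exp_le_exp.mpr
      have hw' : δ < w.im := hw
      have : (τ₀ : ℂ).im = δ := rfl
      rw [this]
      have h2 : -2 * Real.pi * w.im ≤ -2 * Real.pi * δ := by nlinarith [Real.pi_pos]
      exact div_le_div_of_nonneg_right h2 hh.le
  have hEq : (f ∘ ofComplex) =ᶠ[nhds z] (fun w : ℂ => ∑' m : ℕ, c m • 𝕢 h w ^ m) := by
    filter_upwards [hUopen.mem_nhds hzU] with w hw
    have hwpos : 0 < w.im := lt_trans hδpos hw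
    simp only [Function.comp_apply, ofComplex_apply_of_im_pos hwpos]
    exact ((hf ⟨w, hwpos⟩).tsum_eq).symm
  exact ((hD z hzU).differentiableAt (hUopen.mem_nhds hzU)).congr_of_eventuallyEq hEq

/-- A function on `ℍ` given everywhere by a convergent `q`-expansion is periodic. -/
theorem qParam_add_period {h : ℝ} (hh : h ≠ 0) (w : ℂ) : 𝕢 h (w + h) = 𝕢 h w := by
  unfold Function.Periodic.qParam
  have hh' : (h : ℂ) ≠ 0 := by exact_mod_cast hh
  have : 2 * (Real.pi : ℂ) * Complex.I * (w + h) / h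
      = 2 * Real.pi * Complex.I * w / h + 2 * Real.pi * Complex.I := by
    field_simp
  rw [this, Complex.exp_add, Complex.exp_two_pi_mul_I, mul_one]

theorem periodic_of_hasSum_qExpansion {f : ℍ → ℂ} {c : ℕ → ℂ} {h : ℝ} (hh : 0 < h)
    (hf : ∀ τ : ℍ, HasSum (fun m ↦ c m • 𝕢 h τ ^ m) (f τ)) :
    Periodic (f ∘ ofComplex) h := by
  intro w
  by_cases hw : 0 < im w
  · have hw' : 0 < im (w + h) := by simpa using hw
    simp only [Function.comp_apply, ofComplex_apply_of_im_pos hw', ofComplex_apply_of_im_pos hw]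
    have h1 := hf ⟨w + h, hw'⟩
    have h2 := hf ⟨w, hw⟩
    have hq : 𝕢 h ((⟨w + h, hw'⟩ : ℍ) : ℂ) = 𝕢 h ((⟨w, hw⟩ : ℍ) : ℂ) := by
      change 𝕢 h (w + h) = 𝕢 h w
      exact qParam_add_period hh.ne' w
    rw [hq] at h1
    exact h1.unique h2
  · rw [not_lt] at hw
    have hw' : im (w + h) ≤ 0 := by simpa using hw
    simp [ofComplex_apply_of_im_nonpos hw', ofComplex_apply_of_im_nonpos hw]

/-- The cusp function of a function given everywhere by a convergent `q`-expansion is analytic
at `0`. -/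
theorem analyticAt_cuspFunction_of_hasSum_qExpansion {f : ℍ → ℂ} {c : ℕ → ℂ} {h : ℝ}
    (hh : 0 < h) (hf : ∀ τ : ℍ, HasSum (fun m ↦ c m • 𝕢 h τ ^ m) (f τ)) :
    AnalyticAt ℂ (cuspFunction h f) 0 :=
  UpperHalfPlane.analyticAt_cuspFunction_zero hh (periodic_of_hasSum_qExpansion hh hf)
    (mdifferentiable_of_hasSum_qExpansion hh hf)
    (isBoundedAtImInfty_of_hasSum_qExpansion hh hf)

/-- The `q`-expansion of a function given everywhere by a convergent `q`-series is that series
(no modularity needed). -/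
theorem qExpansion_coeff_eq_of_hasSum {f : ℍ → ℂ} {c : ℕ → ℂ} {h : ℝ} (hh : 0 < h)
    (hf : ∀ τ : ℍ, HasSum (fun m ↦ c m • 𝕢 h τ ^ m) (f τ)) (n : ℕ) :
    (qExpansion h f).coeff n = c n := by
  have hfanalytic := analyticAt_cuspFunction_of_hasSum_qExpansion hh hf
  have h1 := (hasFPowerSeriesOnBall_cuspFunction hh hfanalytic hf).hasFPowerSeriesAt
  have h2 := hfanalytic.hasFPowerSeriesAt
  have h3 := congr_arg (FormalMultilinearSeries.coeff · n) (h1.eq_formalMultilinearSeries h2)
  simp only [FormalMultilinearSeries.coeff_ofScalars] at h3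
  rw [UpperHalfPlane.qExpansion_coeff, h3, div_eq_mul_inv, mul_comm]

/-! ## Regrouping by the exponent -/

/-- Regrouping a summable family of powers `q ^ m x` according to the exponent. -/
theorem hasSum_pow_fiberwise {α : Type*} (m : α → ℕ) (hfin : ∀ k, {x | m x = k}.Finite) (q : ℂ)
    (hsum : Summable fun x => q ^ m x) :
    HasSum (fun k : ℕ => (Nat.card {x // m x = k} : ℂ) • q ^ k) (∑' x, q ^ m x) := by
  have h := hsum.hasSum.tsum_fiberwise m
  have key : ∀ k : ℕ, (∑' b : (m ⁻¹' {k}), q ^ m b) = (Nat.card {x // m x = k} : ℂ) • q ^ k := by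
    intro k
    have hF : Finite {x // m x = k} := (hfin k).to_subtype
    let _ : Fintype {x // m x = k} := Fintype.ofFinite _
    have h1 : ∀ b : (m ⁻¹' {k}), q ^ m b = q ^ k := fun b => by rw [b.2]
    rw [tsum_congr h1]
    change ∑' _ : {x // m x = k}, q ^ k = _
    rw [tsum_fintype, Finset.sum_const, Finset.card_univ, Nat.card_eq_fintype_card]
    simp
  simpa only [key] using h

/-! ## Generic theta functions -/

/-- Exponent functions whose theta series converge. -/
def ThetaSummable {α : Type*} (m : α → ℕ) : Prop :=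
  ∀ t : ℝ, 0 < t → Summable fun x => Real.exp (-t * (m x : ℝ))

section theta

variable {α : Type*} {m : α → ℕ}

theorem ThetaSummable.finite_sublevel (hm : ThetaSummable m) (k : ℕ) : {x | m x ≤ k}.Finite := by
  have h := (hm 1 one_pos).tendsto_cofinite_zero
  have h2 : ∀ᶠ x in Filter.cofinite, Real.exp (-1 * (m x : ℝ)) < Real.exp (-1 * (k : ℝ)) :=
    h.eventually (gt_mem_nhds (Real.exp_pos _))
  rw [Filter.eventually_cofinite] at h2
  refine h2.subset ?_
  intro x hx
  change m x ≤ k at hx
  change ¬ _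
  rw [not_lt]
  apply Real.exp_le_exp.mpr
  have : (m x : ℝ) ≤ k := by exact_mod_cast hx
  linarith

theorem ThetaSummable.finite_fiber (hm : ThetaSummable m) (k : ℕ) : {x | m x = k}.Finite :=
  (hm.finite_sublevel k).subset fun _ hx => le_of_eq hx

theorem ThetaSummable.summable_norm_qParam_pow (hm : ThetaSummable m) {h : ℝ} (hh : 0 < h)
    (τ : ℍ) : Summable fun x => ‖𝕢 h τ ^ m x‖ := by
  have h1 := hm (2 * Real.pi * τ.im / h) (by have := τ.im_pos; positivity)
  refine h1.congr ?_
  intro x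
  rw [norm_pow, Function.Periodic.norm_qParam, ← Real.exp_nat_mul]
  congr 1
  have : (τ : ℂ).im = τ.im := rfl
  rw [this]
  ring

theorem ThetaSummable.summable_qParam_pow (hm : ThetaSummable m) {h : ℝ} (hh : 0 < h)
    (τ : ℍ) : Summable fun x => 𝕢 h τ ^ m x :=
  (hm.summable_norm_qParam_pow hh τ).of_norm

/-- The generic theta function `τ ↦ ∑ₓ q_h(τ) ^ m x`. -/
noncomputable def thetaFun (h : ℝ) (m : α → ℕ) : ℍ → ℂ := fun τ => ∑' x, 𝕢 h τ ^ m x

theorem thetaFun_apply (h : ℝ) (m : α → ℕ) (τ : ℍ) : thetaFun h m τ = ∑' x, 𝕢 h τ ^ m x := rfl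

/-- The `q`-expansion of the generic theta function: the coefficients are the representation
numbers. -/
theorem ThetaSummable.hasSum_thetaFun (hm : ThetaSummable m) {h : ℝ} (hh : 0 < h) (τ : ℍ) :
    HasSum (fun k : ℕ => (Nat.card {x // m x = k} : ℂ) • 𝕢 h τ ^ k) (thetaFun h m τ) :=
  hasSum_pow_fiberwise m hm.finite_fiber _ (hm.summable_qParam_pow hh τ)

theorem ThetaSummable.mdifferentiable_thetaFun (hm : ThetaSummable m) {h : ℝ} (hh : 0 < h) :
    MDiff (thetaFun h m) :=
  mdifferentiable_of_hasSum_qExpansion hh (hm.hasSum_thetaFun hh)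

theorem ThetaSummable.isBoundedAtImInfty_thetaFun (hm : ThetaSummable m) {h : ℝ} (hh : 0 < h) :
    IsBoundedAtImInfty (thetaFun h m) :=
  isBoundedAtImInfty_of_hasSum_qExpansion hh (hm.hasSum_thetaFun hh)

/-- The `q`-expansion coefficients of the generic theta function are the representation
numbers. -/
theorem ThetaSummable.qExpansion_coeff (hm : ThetaSummable m) {h : ℝ} (hh : 0 < h) (n : ℕ) :
    (qExpansion h (thetaFun h m)).coeff n = (Nat.card {x // m x = n} : ℂ) :=
  qExpansion_coeff_eq_of_hasSum hh (hm.hasSum_thetaFun hh) n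

end theta

theorem thetaSummable_of_coercive {ι : Type*} [Fintype ι] {m : (ι → ℤ) → ℕ} {c C : ℝ}
    (hc : 0 < c) (hm : ∀ x, c * ∑ i, (x i : ℝ) ^ 2 ≤ (m x : ℝ) + C) : ThetaSummable m :=
  fun _ ht => summable_exp_neg_of_coercive hc hm ht

/-! ## Parity of representation numbers -/

/-- A fixed-point free involution on a finite type forces even cardinality. -/
theorem even_natCard_of_involution {β : Type*} [Finite β] (σ : β → β)
    (hinv : Function.Involutive σ) (hfix : ∀ b, σ b ≠ b) : Even (Nat.card β) := by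
  classical
  let _ : Fintype β := Fintype.ofFinite β
  let e : Equiv.Perm β := hinv.toPerm σ
  have h2 : e ^ 2 = 1 := by
    ext b
    simp [e, pow_two, hinv b]
  have hsupp : e.support = Finset.univ := by
    ext b
    simp [e, Equiv.Perm.mem_support, hfix b]
  have := Equiv.Perm.two_dvd_card_support h2
  rw [hsupp, Finset.card_univ, ← Nat.card_eq_fintype_card] at this
  exact even_iff_two_dvd.mpr this

/-- Representation numbers of an even function without `2`-torsion zeros are even. -/
theorem even_card_fiber {α : Type*} [AddGroup α] (m : α → ℕ)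
    (hneg : ∀ x, m (-x) = m x) (h0 : ∀ x, -x = x → m x = 0)
    (hfin : ∀ k, {x | m x = k}.Finite) {k : ℕ} (hk : k ≠ 0) :
    Even (Nat.card {x // m x = k}) := by
  have : Finite {x // m x = k} := (hfin k).to_subtype
  refine even_natCard_of_involution (fun x => ⟨-x.1, by rw [hneg]; exact x.2⟩) ?_ ?_
  · intro x
    ext
    simp
  · intro x hx
    have : -x.1 = x.1 := congrArg Subtype.val hx
    exact hk (x.2.symm.trans (h0 _ this))

theorem card_fiber_zero {α : Type*} [Zero α] (m : α → ℕ) (h0 : ∀ x, m x = 0 ↔ x = 0) :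
    Nat.card {x // m x = 0} = 1 := by
  rw [Nat.card_eq_one_iff_unique]
  refine ⟨⟨fun a b => Subtype.ext ?_⟩, ⟨⟨0, (h0 0).mpr rfl⟩⟩⟩
  rw [(h0 a.1).mp a.2, (h0 b.1).mp b.2]

theorem neg_eq_self_pi_int {ι : Type*} (x : ι → ℤ) (h : -x = x) : x = 0 := by
  funext i
  have := congrFun h i
  simp only [Pi.neg_apply, Pi.zero_apply] at this ⊢
  omega

end Fermat.Agent.S16.H668
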